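import Mathlib
import Fermat.Agent.LT.T7.H298.MatchQCut

/-!
# Row LT, tower T7, node Q2.7 `CutIntQC298`, leaf Q2.7.9r `ArchVanQC298` (helper904)

OFF-MAIN.  `archVanQC904 : MQ298.ArchVanQC298`, statement VERBATIM vs
`LT/T7/H298/MatchQCut.lean` (helper298@076793e90, sha256 74dc2a3c), UNCONDITIONAL.

Proof.  The real component of the ray generator is the scalar `t > 0` (`reGL_ray904`: the
component in `ℂ` is the image of the real component, `extensionEmbeddingOfIsReal_apply`), so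
`(γ r^j)_∞ = γ_∞ ζ`, `ζ` the positive scalar `t^j`.  For a positive scalar `ζ`: `γ_∞ ζ` is
regular (`disc (γ ζ) = c² disc γ`), has the centraliser of `γ_∞` (the cut-off datum is
transported along the equality of the subgroups, `transport904`), and is not a norm from
`GL₂(ℂ)` if `γ_∞` is not (`δ ↦ δ (√c)⁻¹`).  Second clause of `T6.IsArchMatch`.
-/

set_option autoImplicit false
set_option linter.unusedSectionVars false
set_option linter.unusedVariables false

open AutomorphicForm IsDedekindDomain NumberField MeasureTheory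
open scoped ComplexConjugate

noncomputable section

namespace Fermat.Agent.LT.T7.H904

open Fermat.Agent.LT.H556 Fermat.Agent.LT.H556.A0 Fermat.Agent.LT.T7 Fermat.Agent.LT.T7.H305
open Fermat.Agent.LT.T7.MQ298 Fermat.Agent.LT

/-! ## Scalars in `GL₂` -/

/-- The scalar matrix of a unit, as an element of `GL₂`. -/
def scalGL904 (R : Type) [CommRing R] : Rˣ →* GL (Fin 2) R :=
  Units.map (Matrix.scalar (Fin 2) : R →+* Matrix (Fin 2) (Fin 2) R).toMonoidHom

theorem coe_scalGL904 {R : Type} [CommRing R] (u : Rˣ) :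
    ((scalGL904 R u : GL (Fin 2) R) : Matrix (Fin 2) (Fin 2) R)
      = Matrix.diagonal (fun _ => (u : R)) := rfl

theorem scalGL_comm904 {R : Type} [CommRing R] (u : Rˣ) (x : GL (Fin 2) R) :
    scalGL904 R u * x = x * scalGL904 R u := by
  apply Units.ext
  rw [Units.val_mul, Units.val_mul, coe_scalGL904]
  ext i j
  simp [Matrix.mul_apply, Matrix.diagonal_apply, mul_comm]

/-- The centraliser does not change under multiplication by a scalar. -/
theorem cent_mul_scal904 {R : Type} [CommRing R] (γ : GL (Fin 2) R) (u : Rˣ) :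
    cent305 (γ * scalGL904 R u) = cent305 γ := by
  ext x
  show x⁻¹ * (γ * scalGL904 R u) * x = γ * scalGL904 R u ↔ x⁻¹ * γ * x = γ
  have h : x⁻¹ * (γ * scalGL904 R u) * x = (x⁻¹ * γ * x) * scalGL904 R u := by
    calc x⁻¹ * (γ * scalGL904 R u) * x = x⁻¹ * γ * (scalGL904 R u * x) := by
          simp only [mul_assoc]
      _ = x⁻¹ * γ * (x * scalGL904 R u) := by rw [scalGL_comm904]
      _ = (x⁻¹ * γ * x) * scalGL904 R u := by simp only [mul_assoc]
  rw [h]
  exact mul_left_inj _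

theorem disc_mul_scal904 {R : Type} [CommRing R] (γ : GL (Fin 2) R) (u : Rˣ) :
    T6.disc (γ * scalGL904 R u) = (u : R) ^ 2 * T6.disc γ := by
  show ((γ * scalGL904 R u : GL (Fin 2) R) : Matrix (Fin 2) (Fin 2) R).trace ^ 2
      - 4 * ((γ * scalGL904 R u : GL (Fin 2) R) : Matrix (Fin 2) (Fin 2) R).det
    = (u : R) ^ 2 * ((γ : Matrix (Fin 2) (Fin 2) R).trace ^ 2
      - 4 * (γ : Matrix (Fin 2) (Fin 2) R).det)
  rw [Units.val_mul, coe_scalGL904, Matrix.det_mul, Matrix.det_diagonal]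
  simp only [Matrix.trace_fin_two, Matrix.mul_apply, Matrix.diagonal_apply, Fin.sum_univ_two,
    Fin.prod_univ_two]
  simp
  ring

theorem isReg_mul_scal904 {R : Type} [CommRing R] (γ : GL (Fin 2) R) (u : Rˣ)
    (h : T6.IsReg γ) : T6.IsReg (γ * scalGL904 R u) := by
  show IsUnit (T6.disc (γ * scalGL904 R u))
  rw [disc_mul_scal904]
  exact (u.isUnit.pow 2).mul h

/-! ## Transport of a cut-off datum along an equality of subgroups -/

theorem transport904 {H : Type} [Group H] [TopologicalSpace H] {A B : Subgroup H} (h : A = B)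
    (μ : @Measure A (borel _)) (hμ : @Measure.IsHaarMeasure _ _ _ (borel _) μ) (β : H → ℝ)
    (hβ : ∀ x : H, @integral _ _ _ _ (borel _) μ (fun t : A => β ((t : H) * x)) = 1) :
    ∃ μ' : @Measure B (borel _), @Measure.IsHaarMeasure _ _ _ (borel _) μ' ∧
      ∀ x : H, @integral _ _ _ _ (borel _) μ' (fun t : B => β ((t : H) * x)) = 1 := by
  subst h
  exact ⟨μ, hμ, hβ⟩

/-! ## Norms from `GL₂(ℂ)` and positive scalars -/

theorem twNorm_two904 (δ : GL (Fin 2) ℂ) :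
    T6.twNorm (starRingAut : ℂ ≃+* ℂ) 2 δ = δ * T6.glAut (starRingAut : ℂ ≃+* ℂ) δ := by
  show δ * T6.glAut (starRingAut : ℂ ≃+* ℂ) (δ * T6.glAut (starRingAut : ℂ ≃+* ℂ) 1)
    = δ * T6.glAut (starRingAut : ℂ ≃+* ℂ) δ
  rw [map_one, mul_one]

/-- The image in `GL₂(ℂ)` of a real scalar. -/
theorem map_scalGL904 (u : ℝˣ) :
    Matrix.GeneralLinearGroup.map (algebraMap ℝ ℂ) (scalGL904 ℝ u)
      = scalGL904 ℂ (Units.map (algebraMap ℝ ℂ).toMonoidHom u) := by
  apply Units.ext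
  ext i j
  show algebraMap ℝ ℂ ((Matrix.diagonal fun _ => (u : ℝ)) i j)
    = (Matrix.diagonal fun _ => ((Units.map (algebraMap ℝ ℂ).toMonoidHom u : ℂˣ) : ℂ)) i j
  by_cases hij : i = j
  · subst hij
    simp
  · simp [Matrix.diagonal_apply_ne _ hij]

/-- A real scalar of `GL₂(ℂ)` is fixed by the conjugation. -/
theorem glAut_scal904 (c : ℝ) (hc : c ≠ 0) :
    T6.glAut (starRingAut : ℂ ≃+* ℂ)
        (scalGL904 ℂ (Units.mk0 (c : ℂ) (by exact_mod_cast hc)))
      = scalGL904 ℂ (Units.mk0 (c : ℂ) (by exact_mod_cast hc)) := by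
  apply Units.ext
  ext i j
  show (starRingAut : ℂ ≃+* ℂ) ((Matrix.diagonal fun _ => (c : ℂ)) i j)
    = (Matrix.diagonal fun _ => (c : ℂ)) i j
  by_cases hij : i = j
  · subst hij
    simp
  · simp [Matrix.diagonal_apply_ne _ hij]

/-- If `γ ζ` is a norm from `GL₂(ℂ)`, `ζ` a positive scalar, then `γ` is a norm. -/
theorem isNormFrom_of_mul_scal904 (γ : GL (Fin 2) ℝ) (c : ℝ) (hc : 0 < c)
    (h : T6.IsNormFrom 2 (algebraMap ℝ ℂ) (starRingAut : ℂ ≃+* ℂ)
      (γ * scalGL904 ℝ (Units.mk0 c hc.ne'))) :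
    T6.IsNormFrom 2 (algebraMap ℝ ℂ) (starRingAut : ℂ ≃+* ℂ) γ := by
  obtain ⟨δ, hδ⟩ := h
  have hs : Real.sqrt c ≠ 0 := (Real.sqrt_pos.mpr hc).ne'
  set ζ : GL (Fin 2) ℂ :=
    scalGL904 ℂ (Units.mk0 ((Real.sqrt c : ℝ) : ℂ) (by exact_mod_cast hs)) with hζ
  have hζfix : T6.glAut (starRingAut : ℂ ≃+* ℂ) ζ = ζ := glAut_scal904 _ hs
  have hζ2 : ζ * ζ = Matrix.GeneralLinearGroup.map (algebraMap ℝ ℂ)
      (scalGL904 ℝ (Units.mk0 c hc.ne')) := by
    rw [map_scalGL904, hζ, ← map_mul]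
    congr 1
    apply Units.ext
    show ((Real.sqrt c : ℝ) : ℂ) * ((Real.sqrt c : ℝ) : ℂ) = algebraMap ℝ ℂ c
    rw [← Complex.ofReal_mul, Real.mul_self_sqrt hc.le]
    rfl
  -- the inverse of `ζ` is a scalar: central, fixed by the conjugation
  set w : GL (Fin 2) ℂ :=
    scalGL904 ℂ (Units.mk0 ((Real.sqrt c : ℝ) : ℂ) (by exact_mod_cast hs))⁻¹ with hw
  have hwζ : w = ζ⁻¹ := by rw [hw, hζ, map_inv]
  have hcomm : ∀ x : GL (Fin 2) ℂ, w * x = x * w := fun x => scalGL_comm904 _ x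
  have hwfix : T6.glAut (starRingAut : ℂ ≃+* ℂ) w = w := by
    rw [hwζ, map_inv, hζfix]
  have hζw : ζ * ζ * (w * w) = 1 := by
    rw [hwζ]; group
  refine ⟨δ * w, ?_⟩
  rw [twNorm_two904] at hδ ⊢
  rw [map_mul] at hδ
  rw [map_mul, hwfix]
  obtain ⟨g, hg⟩ := isConj_iff.mp hδ
  refine isConj_iff.mpr ⟨g, ?_⟩
  set a := δ with ha
  set b := T6.glAut (starRingAut : ℂ ≃+* ℂ) δ with hb
  have e1 : a * w * (b * w) = a * b * (w * w) := by
    calc a * w * (b * w) = a * (w * b) * w := by simp only [mul_assoc]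
      _ = a * (b * w) * w := by rw [hcomm b]
      _ = a * b * (w * w) := by simp only [mul_assoc]
  have e2 : g * (a * b * (w * w)) * g⁻¹ = g * (a * b) * g⁻¹ * (w * w) := by
    calc g * (a * b * (w * w)) * g⁻¹ = g * (a * b) * (w * (w * g⁻¹)) := by
          simp only [mul_assoc]
      _ = g * (a * b) * (w * (g⁻¹ * w)) := by rw [hcomm g⁻¹]
      _ = g * (a * b) * ((w * g⁻¹) * w) := by simp only [mul_assoc]
      _ = g * (a * b) * ((g⁻¹ * w) * w) := by rw [hcomm g⁻¹]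
      _ = g * (a * b) * g⁻¹ * (w * w) := by simp only [mul_assoc]
  rw [e1, e2, hg, ← hζ2, mul_assoc, hζw, mul_one]

/-! ## The real component -/

/-- The component in `ℂ` at the real place of `ℚ` is the image of the real component. -/
theorem infHom_eq_ofReal904 (a : Adl ℚ) :
    T5.infHom Rat.infinitePlace a = ((reHomQ298 a : ℝ) : ℂ) :=
  (InfinitePlace.Completion.extensionEmbeddingOfIsReal_apply Rat.isReal_infinitePlace _).symm

/-- The real component of the ray generator is a positive scalar. -/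
theorem reGL_ray904 {R : Frame5 ℚ} (hR : IsFrame5 R) :
    ∃ (t : ℝ) (ht : 0 < t), reGLQ298 R.r = scalGL904 ℝ (Units.mk0 t ht.ne') := by
  obtain ⟨-, t, ht, -, hinf⟩ := hR.ray
  refine ⟨t, ht, ?_⟩
  apply Units.ext
  ext i j
  have h1 := congrFun (congrFun (hinf Rat.infinitePlace) i) j
  rw [T5.infComp_eq_map] at h1
  have h2 : ((reHomQ298 ((R.r : Matrix (Fin 2) (Fin 2) (Adl ℚ)) i j) : ℝ) : ℂ)
      = (Matrix.diagonal fun _ => (t : ℂ)) i j := by
    rw [← infHom_eq_ofReal904]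
    exact h1
  show reHomQ298 ((R.r : Matrix (Fin 2) (Fin 2) (Adl ℚ)) i j)
    = (Matrix.diagonal fun _ => t) i j
  by_cases hij : i = j
  · subst hij
    rw [Matrix.diagonal_apply_eq] at h2 ⊢
    exact_mod_cast h2
  · rw [Matrix.diagonal_apply_ne _ hij] at h2 ⊢
    exact_mod_cast h2

/-- Regularity is preserved by ring homomorphisms. -/
theorem isReg_map904 {A B : Type} [CommRing A] [CommRing B] (f : A →+* B)
    (γ : GL (Fin 2) A) (h : T6.IsReg γ) :
    T6.IsReg (Matrix.GeneralLinearGroup.map f γ) := by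
  have h0 : IsUnit ((γ : Matrix (Fin 2) (Fin 2) A).trace ^ 2
      - 4 * (γ : Matrix (Fin 2) (Fin 2) A).det) := h
  show IsUnit (((Matrix.GeneralLinearGroup.map f γ : GL (Fin 2) B) :
      Matrix (Fin 2) (Fin 2) B).trace ^ 2
    - 4 * ((Matrix.GeneralLinearGroup.map f γ : GL (Fin 2) B) : Matrix (Fin 2) (Fin 2) B).det)
  have h1 : ((Matrix.GeneralLinearGroup.map f γ : GL (Fin 2) B) :
      Matrix (Fin 2) (Fin 2) B).trace ^ 2
    - 4 * ((Matrix.GeneralLinearGroup.map f γ : GL (Fin 2) B) : Matrix (Fin 2) (Fin 2) B).det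
    = f ((γ : Matrix (Fin 2) (Fin 2) A).trace ^ 2
      - 4 * (γ : Matrix (Fin 2) (Fin 2) A).det) := by
    simp only [Matrix.trace_fin_two, Matrix.det_fin_two, Matrix.GeneralLinearGroup.map_apply,
      map_sub, map_mul, map_add, map_pow, map_ofNat]
  rw [h1]
  exact h0.map f

/-- **LEAF Q2.7.9r = ARCH-VAN**, closed. -/
theorem archVanQC904 : ArchVanQC298 := by
  intro R hR μr μc Φ f hmatch γ hγ hnn μtr βr hμtr hcut j
  obtain ⟨t, ht, hr⟩ := reGL_ray904 hR
  have hc : 0 < ((((Units.mk0 t ht.ne') ^ j : ℝˣ)) : ℝ) := by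
    rw [Units.val_zpow_eq_zpow_val]
    exact zpow_pos ht j
  have hu : (Units.mk0 t ht.ne') ^ j
      = Units.mk0 ((((Units.mk0 t ht.ne') ^ j : ℝˣ)) : ℝ) hc.ne' := Units.ext rfl
  have h1 : reGLQ298 (T5.ratG γ * R.r ^ j)
      = reGLQ298 (T5.ratG γ)
        * scalGL904 ℝ (Units.mk0 ((((Units.mk0 t ht.ne') ^ j : ℝˣ)) : ℝ) hc.ne') := by
    rw [map_mul, map_zpow, hr, ← map_zpow, ← hu]
  have hreg0 : T6.IsReg (reGLQ298 (T5.ratG γ)) :=
    isReg_map904 reHomQ298 _ (isReg_map904 (algebraMap ℚ (Adl ℚ)) γ hγ.1)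
  have hreg := isReg_mul_scal904 (reGLQ298 (T5.ratG γ))
    (Units.mk0 ((((Units.mk0 t ht.ne') ^ j : ℝˣ)) : ℝ) hc.ne') hreg0
  have hnn' : ¬ T6.IsNormFrom 2 (algebraMap ℝ ℂ) (starRingAut : ℂ ≃+* ℂ)
      (reGLQ298 (T5.ratG γ)
        * scalGL904 ℝ (Units.mk0 ((((Units.mk0 t ht.ne') ^ j : ℝˣ)) : ℝ) hc.ne')) :=
    fun h => hnn (isNormFrom_of_mul_scal904 _ _ hc h)
  obtain ⟨hcont, hnonneg, hint⟩ := hcut
  obtain ⟨μT', hμT', hint'⟩ := transport904
    (cent_mul_scal904 (reGLQ298 (T5.ratG γ))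
      (Units.mk0 ((((Units.mk0 t ht.ne') ^ j : ℝˣ)) : ℝ) hc.ne')).symm μtr hμtr βr hint
  have key := (hmatch _ hreg μT' hμT' βr hcont hnonneg hint').2 hnn'
  rw [h1]
  exact key

end Fermat.Agent.LT.T7.H904

end
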