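import Mathlib
import Fermat.Agent.LT.T7.H864.UpDatQSpec
import Fermat.Agent.LT.T7.H584.Cutoff
import Fermat.Agent.LT.T6.H846.OrbAlg
import Fermat.Agent.LT.T7.H904.ArchVanQ

/-!
# Row LT, tower T7, node Q2.7.13.1.a `UpDatExistsQC`, leaf UQ.3 `UpArchQC864` (helper904)

OFF-MAIN.  `upArchQC904 : H864.UpArchQC864`, statement VERBATIM vs
`LT/T7/H864/UpDatQSpec.lean` (helper864@27d680516, sha256 0b9abd48), UNCONDITIONAL.

Proof.  Abstract form `exists_cutoff_hom904`: `f : H → G` a homomorphism which is a closed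
embedding, `G` locally compact `σ`-compact Hausdorff, `T` a closed commutative subgroup of `H`
with a Haar measure `μ`: the image `T' = f(T)` is a closed subgroup of `G`, `T ≃ T'` is a
homeomorphism, the image of `μ` is a Haar measure of `T'`, right invariant (`T'` commutative);
`exists_cutoff584` (helper584) for `(G, T')` and the change of variables.  `GL₂(ℝ) → GL₂(ℂ)` is
a closed embedding (`isClosedEmbedding_mapRC904`: entries, `Units.embedProduct`); the
centraliser of the regular element `γ_∞` is closed and commutative.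
-/

set_option autoImplicit false
set_option linter.unusedSectionVars false
set_option linter.unusedVariables false
set_option linter.style.haveILetI false

open AutomorphicForm IsDedekindDomain NumberField MeasureTheory
open scoped ComplexConjugate

noncomputable section

namespace Fermat.Agent.LT.T7.H904

open Fermat.Agent.LT.H556 Fermat.Agent.LT.H556.A0 Fermat.Agent.LT.T7 Fermat.Agent.LT.T7.H305
open Fermat.Agent.LT.T7.MQ298 Fermat.Agent.LT

/-- **Cut-off functions along a closed embedding.** -/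
theorem exists_cutoff_hom904 {G H : Type} [Group G] [TopologicalSpace G] [IsTopologicalGroup G]
    [LocallyCompactSpace G] [T2Space G] [SigmaCompactSpace G]
    [Group H] [TopologicalSpace H] [IsTopologicalGroup H]
    (f : H →* G) (hf : Topology.IsClosedEmbedding f) (T : Subgroup H)
    (hT : IsClosed (T : Set H)) (hcomm : ∀ a b : T, a * b = b * a)
    (μ : @Measure T (borel _)) (hμ : @Measure.IsHaarMeasure _ _ _ (borel _) μ) :
    ∃ β : G → ℝ, Continuous β ∧ (∀ x, 0 ≤ β x) ∧
      ∀ x : G, @integral _ _ _ _ (borel _) μ (fun t : T => β (f (t : H) * x)) = 1 := by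
  letI : MeasurableSpace T := borel _
  haveI : BorelSpace T := ⟨rfl⟩
  haveI := hμ
  set T' : Subgroup G := T.map f with hT'
  have hcl : IsClosed (T' : Set G) := by
    have h : (T' : Set G) = f '' (T : Set H) := rfl
    rw [h]
    exact hf.isClosedMap _ hT
  letI : MeasurableSpace T' := borel _
  haveI : BorelSpace T' := ⟨rfl⟩
  set e : T ≃* T' := T.equivMapOfInjective f hf.injective with he
  have hev : ∀ t : T, ((e t : T') : G) = f (t : H) := fun t => rfl
  have hec : Continuous e :=
    Continuous.subtype_mk (hf.continuous.comp continuous_subtype_val) _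
  have hind : Topology.IsInducing (fun t : T => f (t : H)) :=
    hf.isInducing.comp Topology.IsInducing.subtypeVal
  have hesc : Continuous e.symm := by
    rw [hind.continuous_iff]
    have h : (fun t : T => f (t : H)) ∘ e.symm = fun t' : T' => (t' : G) := by
      funext t'
      show f ((e.symm t' : T) : H) = (t' : G)
      rw [← hev, MulEquiv.apply_symm_apply]
    rw [h]
    exact continuous_subtype_val
  set μ' : Measure T' := Measure.map e μ with hμ'
  haveI : μ'.IsHaarMeasure := e.isHaarMeasure_map μ hec hesc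
  have hcomm' : ∀ a b : T', a * b = b * a := by
    intro a b
    have h := hcomm (e.symm a) (e.symm b)
    have h2 := congrArg e h
    simpa using h2
  haveI : μ'.IsMulRightInvariant := ⟨fun g => by
    have e1 : (fun t : T' => t * g) = fun t => g * t := by
      funext t
      exact hcomm' t g
    rw [e1]
    exact map_mul_left_eq_self μ' g⟩
  obtain ⟨β, hβc, hβ0, -, hβ1⟩ := H584.exists_cutoff584 T' μ' hcl
  refine ⟨β, hβc, hβ0, fun x => ?_⟩
  have hme : MeasurableEmbedding e :=
    (Homeomorph.mk e.toEquiv hec hesc).measurableEmbedding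
  have h1 := hβ1 x
  rw [hμ', hme.integral_map] at h1
  exact h1

/-! ## `GL₂(ℝ) → GL₂(ℂ)` is a closed embedding -/

theorem isClosedEmbedding_mapMat904 :
    Topology.IsClosedEmbedding
      (fun A : Matrix (Fin 2) (Fin 2) ℝ => A.map (algebraMap ℝ ℂ)) := by
  have h0 : Topology.IsClosedEmbedding (algebraMap ℝ ℂ) :=
    Complex.isometry_ofReal.isClosedEmbedding
  have h1 : Topology.IsClosedEmbedding
      (Pi.map fun _ : Fin 2 => (Pi.map fun _ : Fin 2 => (algebraMap ℝ ℂ : ℝ → ℂ))) :=
    Topology.IsClosedEmbedding.piMap fun _ => Topology.IsClosedEmbedding.piMap fun _ => h0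
  exact h1

theorem isClosedEmbedding_mapRC904 :
    Topology.IsClosedEmbedding
      (Matrix.GeneralLinearGroup.map (algebraMap ℝ ℂ) : GL (Fin 2) ℝ → GL (Fin 2) ℂ) := by
  have hC : Topology.IsClosedEmbedding (Units.embedProduct (Matrix (Fin 2) (Fin 2) ℂ)) :=
    Units.isClosedEmbedding_embedProduct
  have hR : Topology.IsClosedEmbedding (Units.embedProduct (Matrix (Fin 2) (Fin 2) ℝ)) :=
    Units.isClosedEmbedding_embedProduct
  rw [← hC.of_comp_iff]
  have hF := isClosedEmbedding_mapMat904
  have hop : Topology.IsClosedEmbedding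
      (fun A : (Matrix (Fin 2) (Fin 2) ℝ)ᵐᵒᵖ =>
        MulOpposite.op ((MulOpposite.unop A).map (algebraMap ℝ ℂ))) :=
    (MulOpposite.opHomeomorph.isClosedEmbedding.comp hF).comp
      MulOpposite.opHomeomorph.symm.isClosedEmbedding
  have hcomp : (Units.embedProduct (Matrix (Fin 2) (Fin 2) ℂ)) ∘
      (Matrix.GeneralLinearGroup.map (algebraMap ℝ ℂ) : GL (Fin 2) ℝ → GL (Fin 2) ℂ)
      = (Prod.map (fun A : Matrix (Fin 2) (Fin 2) ℝ => A.map (algebraMap ℝ ℂ))
          (fun A : (Matrix (Fin 2) (Fin 2) ℝ)ᵐᵒᵖ =>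
            MulOpposite.op ((MulOpposite.unop A).map (algebraMap ℝ ℂ))))
        ∘ (Units.embedProduct (Matrix (Fin 2) (Fin 2) ℝ)) := by
    funext g
    rfl
  rw [hcomp]
  exact (hF.prodMap hop).comp hR

theorem locallyCompact_GL2C904 : LocallyCompactSpace (GL (Fin 2) ℂ) := by
  haveI : LocallyCompactSpace (Matrix (Fin 2) (Fin 2) ℂ) :=
    inferInstanceAs (LocallyCompactSpace (Fin 2 → Fin 2 → ℂ))
  haveI : LocallyCompactSpace (Matrix (Fin 2) (Fin 2) ℂ)ᵐᵒᵖ :=
    (MulOpposite.opHomeomorph
      (M := Matrix (Fin 2) (Fin 2) ℂ)).symm.isClosedEmbedding.locallyCompactSpace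
  exact (Units.isClosedEmbedding_embedProduct
    (α := Matrix (Fin 2) (Fin 2) ℂ)).locallyCompactSpace

theorem sigmaCompact_GL2C904 : SigmaCompactSpace (GL (Fin 2) ℂ) := by
  haveI : SigmaCompactSpace (Matrix (Fin 2) (Fin 2) ℂ) :=
    inferInstanceAs (SigmaCompactSpace (Fin 2 → Fin 2 → ℂ))
  haveI : SigmaCompactSpace (Matrix (Fin 2) (Fin 2) ℂ)ᵐᵒᵖ :=
    MulOpposite.opHomeomorph.symm.isClosedEmbedding.sigmaCompactSpace
  exact Units.isClosedEmbedding_embedProduct.sigmaCompactSpace

/-- The centraliser is closed. -/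
theorem isClosed_cent904 {H : Type} [Group H] [TopologicalSpace H] [IsTopologicalGroup H]
    [T2Space H] (γ : H) : IsClosed ((cent305 γ : Subgroup H) : Set H) := by
  have h : ((cent305 γ : Subgroup H) : Set H) = {x : H | x⁻¹ * γ * x = γ} := rfl
  rw [h]
  exact isClosed_eq ((continuous_inv.mul continuous_const).mul continuous_id) continuous_const

/-- The centraliser of a regular element of `GL₂(F)` is commutative. -/
theorem cent_comm904 {F : Type} [Field F] (γ : GL (Fin 2) F) (hγ : T6.IsReg γ)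
    (a b : cent305 γ) : a * b = b * a := by
  have hD : (γ : Matrix (Fin 2) (Fin 2) F).trace ^ 2
      - 4 * (γ : Matrix (Fin 2) (Fin 2) F).det ≠ 0 := IsUnit.ne_zero hγ
  have key : ∀ x : cent305 γ, ((x : GL (Fin 2) F) : Matrix (Fin 2) (Fin 2) F)
      * (γ : Matrix (Fin 2) (Fin 2) F)
      = (γ : Matrix (Fin 2) (Fin 2) F) * ((x : GL (Fin 2) F) : Matrix (Fin 2) (Fin 2) F) := by
    intro x
    have hx : (x : GL (Fin 2) F)⁻¹ * γ * (x : GL (Fin 2) F) = γ := x.2
    have hx' : (x : GL (Fin 2) F) * γ = γ * (x : GL (Fin 2) F) := by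
      calc (x : GL (Fin 2) F) * γ
          = (x : GL (Fin 2) F) * ((x : GL (Fin 2) F)⁻¹ * γ * (x : GL (Fin 2) F)) := by rw [hx]
        _ = γ * (x : GL (Fin 2) F) := by group
    rw [← Units.val_mul, ← Units.val_mul, hx']
  apply Subtype.ext
  apply Units.ext
  show ((a : GL (Fin 2) F) : Matrix (Fin 2) (Fin 2) F) * ((b : GL (Fin 2) F) : Matrix _ _ F)
    = ((b : GL (Fin 2) F) : Matrix (Fin 2) (Fin 2) F) * ((a : GL (Fin 2) F) : Matrix _ _ F)
  exact T6.H846.comm_of_comm_reg846 _ _ _ hD (key a) (key b)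

/-- **LEAF UQ.3 = UP-ARCH-Q**, closed. -/
theorem upArchQC904 : H864.UpArchQC864 := by
  intro γ hγ μtr hμtr
  haveI := locallyCompact_GL2C904
  haveI := sigmaCompact_GL2C904
  have hreg : T6.IsReg (reGLQ298 (T5.ratG γ)) :=
    isReg_map904 reHomQ298 _ (isReg_map904 (algebraMap ℚ (Adl ℚ)) γ hγ.1)
  exact exists_cutoff_hom904 (Matrix.GeneralLinearGroup.map (algebraMap ℝ ℂ))
    isClosedEmbedding_mapRC904 (cent305 (reGLQ298 (T5.ratG γ)))
    (isClosed_cent904 _) (cent_comm904 _ hreg) μtr hμtr

end Fermat.Agent.LT.T7.H904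

end
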