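import Mathlib
import Fermat.Agent.LT.T7.H445.StepMSpec

/-!
# Row LT, tower T7, node T7.L2.1.H2a.A.3 `StepMC981`, leaf M.9 `ArchFibreC445` (helper904)

OFF-MAIN.  `archFibreC904 (K K') : H445.ArchFibreC445 K K'`, statement VERBATIM vs
`LT/T7/H445/StepMSpec.lean` (helper445@308fe65c0, sha256 95c0ff93), UNCONDITIONAL.

Proof.  The Galois group (of order `ℓ`) acts transitively on the places over `v`
(`InfinitePlace.exists_smul_eq_of_comap_eq`), so the fibre has at most `ℓ` elements; the
enumeration has `ℓ` distinct members in the fibre, so it exhausts it.  (`TotCplx K` and the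
primality of `ℓ` are not used.)
-/

set_option autoImplicit false
set_option linter.unusedSectionVars false
set_option linter.unusedVariables false

open AutomorphicForm IsDedekindDomain NumberField MeasureTheory

noncomputable section

namespace Fermat.Agent.LT.T7.H904

open Fermat.Agent.LT.T7

/-- **LEAF M.9 = ARCH-FIBRE**, closed. -/
theorem archFibreC904 (K K' : Type) [Field K] [NumberField K] [Field K'] [NumberField K']
    [Algebra K K'] : H445.ArchFibreC445 K K' := by
  intro ℓ hcyc hK v w hov hinj w' hw'
  classical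
  have : IsGalois K K' := hcyc.galois
  have hl : 0 < ℓ := hcyc.prime.pos
  have : Module.Finite K K' := Module.finite_of_finrank_pos (by rw [hcyc.degree]; exact hl)
  have hcard : Nat.card (K' ≃ₐ[K] K') = ℓ := by
    rw [IsGalois.card_aut_eq_finrank, hcyc.degree]
  let _instF : Fintype (K' ≃ₐ[K] K') := Fintype.ofFinite _
  -- the fibre over `v`
  set S : Finset (InfinitePlace K') :=
    Finset.univ.filter (fun u => u.comap (algebraMap K K') = v) with hSdef
  have hS : S.card ≤ ℓ := by
    have hsub : S ⊆ (Finset.univ : Finset (K' ≃ₐ[K] K')).image (fun h => h • w 0) := by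
      intro u hu
      have hu' : u.comap (algebraMap K K') = v := (Finset.mem_filter.mp hu).2
      obtain ⟨h, hh⟩ := InfinitePlace.exists_smul_eq_of_comap_eq (k := K) (w := w 0) (w' := u)
        (by rw [hov 0, hu'])
      exact Finset.mem_image.mpr ⟨h, Finset.mem_univ _, hh⟩
    calc S.card ≤ ((Finset.univ : Finset (K' ≃ₐ[K] K')).image (fun h => h • w 0)).card :=
          Finset.card_le_card hsub
      _ ≤ (Finset.univ : Finset (K' ≃ₐ[K] K')).card := Finset.card_image_le
      _ = ℓ := by rw [Finset.card_univ, ← Nat.card_eq_fintype_card, hcard]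
  -- the enumeration
  set I : Finset (InfinitePlace K') := (Finset.range ℓ).image w with hIdef
  have hI : I.card = ℓ := by
    rw [Finset.card_image_of_injOn, Finset.card_range]
    intro a ha b hb hab
    exact hinj a b (Finset.mem_range.mp ha) (Finset.mem_range.mp hb) hab
  have hIS : I ⊆ S := by
    intro u hu
    obtain ⟨a, -, rfl⟩ := Finset.mem_image.mp hu
    exact Finset.mem_filter.mpr ⟨Finset.mem_univ _, hov a⟩
  have hEq : I = S := Finset.eq_of_subset_of_card_le hIS (by rw [hI]; exact hS)
  have hw'S : w' ∈ S := Finset.mem_filter.mpr ⟨Finset.mem_univ _, hw'⟩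
  rw [← hEq] at hw'S
  obtain ⟨j, hj, hjw⟩ := Finset.mem_image.mp hw'S
  exact ⟨j, Finset.mem_range.mp hj, hjw⟩

end Fermat.Agent.LT.T7.H904

end
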