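import Mathlib
import Fermat.Agent.LT.T7.H445.StepMSpec

/-!
# Row LT, tower T7, node T7.L2.1.H2a.A.3 `StepMC981`, leaf M.5 `SphPureC445` (helper904)

OFF-MAIN.  `sphPureC904 (K) : H445.SphPureC445 K`, statement VERBATIM vs
`LT/T7/H445/StepMSpec.lean` (helper445@308fe65c0, sha256 95c0ff93), UNCONDITIONAL, no
hypothesis on the components (`w.IsComplex` is not used).

Proof.  `Y α β` is local at `w`: its finite components and its components at `w' ≠ w` are `1`,
its component at `w` is `y α β`.  So `OutT305 T (h Y) ↔ OutT305 T h`, the finite components of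
`h Y` are those of `h`, and `pure305 T f₀ F (h Y) = A · F_w(h_w y(α,β)) · B` with `A`, `B`
independent of `(α, β)`; the integral is linear.
-/

set_option autoImplicit false
set_option linter.unusedSectionVars false
set_option linter.unusedVariables false

open AutomorphicForm IsDedekindDomain NumberField MeasureTheory
open scoped ComplexConjugate

noncomputable section

namespace Fermat.Agent.LT.T7.H904

open Fermat.Agent.LT.H556 Fermat.Agent.LT.H556.A0 Fermat.Agent.LT.T7
open Fermat.Agent.LT.T7.H305 Fermat.Agent.LT.T7.H445 Fermat.Agent.LT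

variable {K : Type} [Field K] [NumberField K]

theorem pure_pos904 (T : Finset (HeightOneSpectrum (𝓞 K)))
    (f₀ : ∀ v : HeightOneSpectrum (𝓞 K), GL (Fin 2) (v.adicCompletion K) → ℂ)
    (F : InfinitePlace K → GL (Fin 2) ℂ → ℂ) (g : G K) (hg : OutT305 T g) :
    pure305 T f₀ F g
      = (∏ v ∈ T, f₀ v (finGL305 v g)) * ∏ w : InfinitePlace K, F w (infGL305 w g) := by
  show @ite _ (OutT305 T g) (Classical.propDecidable _) _ _ = _
  exact if_pos hg

theorem pure_neg904 (T : Finset (HeightOneSpectrum (𝓞 K)))
    (f₀ : ∀ v : HeightOneSpectrum (𝓞 K), GL (Fin 2) (v.adicCompletion K) → ℂ)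
    (F : InfinitePlace K → GL (Fin 2) ℂ → ℂ) (g : G K) (hg : ¬ OutT305 T g) :
    pure305 T f₀ F g = 0 := by
  show @ite _ (OutT305 T g) (Classical.propDecidable _) _ _ = _
  exact if_neg hg

/-- `OutT305` depends on the finite components only. -/
theorem outT_congr904 (T : Finset (HeightOneSpectrum (𝓞 K))) (g g' : G K)
    (h : ∀ v : HeightOneSpectrum (𝓞 K), finGL305 v g = finGL305 v g') :
    OutT305 T g → OutT305 T g' := by
  intro H v hv
  obtain ⟨h1, h2⟩ := H v hv
  have e1 : finComp v g' = finComp v g :=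
    congrArg (fun u : GL (Fin 2) (v.adicCompletion K) =>
      (u : Matrix (Fin 2) (Fin 2) (v.adicCompletion K))) (h v).symm
  have e2 : finComp v g'⁻¹ = finComp v g⁻¹ := by
    have h3 : finGL305 v g'⁻¹ = finGL305 v g⁻¹ := by
      rw [map_inv, map_inv, h v]
    exact congrArg (fun u : GL (Fin 2) (v.adicCompletion K) =>
      (u : Matrix (Fin 2) (Fin 2) (v.adicCompletion K))) h3
  refine ⟨fun i j => ?_, fun i j => ?_⟩
  · show finComp v g' i j ∈ _
    rw [e1]
    exact h1 i j
  · show finComp v g'⁻¹ i j ∈ _
    rw [e2]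
    exact h2 i j

/-- **LEAF M.5 = SPH-PURE**, closed. -/
theorem sphPureC904 (K : Type) [Field K] [NumberField K] : SphPureC445 K := by
  intro w hw d Y hY y hy T f₀ F h
  classical
  have hfin : ∀ (α β : ℝ) (v : HeightOneSpectrum (𝓞 K)), finGL305 v (Y α β) = 1 := by
    intro α β v
    apply Units.ext
    exact (hY α β).1.2 v
  have hinf : ∀ (α β : ℝ) (w' : InfinitePlace K), w' ≠ w → infGL305 w' (Y α β) = 1 := by
    intro α β w' hw'
    apply Units.ext
    ext i j
    have h1 := (hY α β).1.1 w' hw' i j
    show InfinitePlace.Completion.extensionEmbedding w'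
        ((((Y α β : G K) : Matrix (Fin 2) (Fin 2) (Adl K)) i j).1 w')
      = (1 : Matrix (Fin 2) (Fin 2) ℂ) i j
    rw [h1]
    by_cases hij : i = j
    · subst hij
      rw [Matrix.one_apply_eq, Matrix.one_apply_eq, map_one]
    · rw [Matrix.one_apply_ne hij, Matrix.one_apply_ne hij, map_zero]
  have hinfw : ∀ α β : ℝ, infGL305 w (Y α β) = y α β := by
    intro α β
    apply Units.ext
    rw [hy α β]
    exact (hY α β).2
  have hfinmul : ∀ (α β : ℝ) (v : HeightOneSpectrum (𝓞 K)),
      finGL305 v (h * Y α β) = finGL305 v h := by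
    intro α β v
    rw [map_mul, hfin, mul_one]
  have hOut : ∀ α β : ℝ, (OutT305 T (h * Y α β) ↔ OutT305 T h) := fun α β =>
    ⟨outT_congr904 T _ _ (hfinmul α β), outT_congr904 T _ _ fun v => (hfinmul α β v).symm⟩
  by_cases hO : OutT305 T h
  · -- the main case
    set A : ℂ := ∏ v ∈ T, f₀ v (finGL305 v h) with hA
    set B : ℂ := ∏ w' ∈ (Finset.univ : Finset (InfinitePlace K)).erase w,
      F w' (infGL305 w' h) with hB
    have hL : ∀ α β : ℝ, pure305 T f₀ F (h * Y α β)
        = A * B * F w (infGL305 w h * y α β) := by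
      intro α β
      rw [pure_pos904 T f₀ F _ ((hOut α β).mpr hO)]
      have e1 : (∏ v ∈ T, f₀ v (finGL305 v (h * Y α β))) = A := by
        apply Finset.prod_congr rfl
        intro v _
        rw [hfinmul]
      have e2 : (∏ w' : InfinitePlace K, F w' (infGL305 w' (h * Y α β)))
          = F w (infGL305 w h * y α β) * B := by
        rw [← Finset.mul_prod_erase Finset.univ _ (Finset.mem_univ w)]
        congr 1
        · rw [map_mul, hinfw]
        · apply Finset.prod_congr rfl
          intro w' hw'
          rw [map_mul, hinf α β w' (Finset.ne_of_mem_erase hw'), mul_one]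
      rw [e1, e2]
      ring
    have hR : pure305 T f₀ (updArch445 F w (sphMeanC445 y (F w))) h
        = A * B * sphMeanC445 y (F w) (infGL305 w h) := by
      rw [pure_pos904 T f₀ _ _ hO]
      have e2 : (∏ w' : InfinitePlace K,
          updArch445 F w (sphMeanC445 y (F w)) w' (infGL305 w' h))
          = sphMeanC445 y (F w) (infGL305 w h) * B := by
        rw [← Finset.mul_prod_erase Finset.univ _ (Finset.mem_univ w)]
        congr 1
        · show (if w = w then sphMeanC445 y (F w) else F w) (infGL305 w h) = _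
          rw [if_pos rfl]
        · apply Finset.prod_congr rfl
          intro w' hw'
          show (if w' = w then sphMeanC445 y (F w) else F w') (infGL305 w' h) = _
          rw [if_neg (Finset.ne_of_mem_erase hw')]
      rw [e2]
      ring
    rw [hR]
    show (∫ α in (0 : ℝ)..(2 * Real.pi), ∫ β in (0 : ℝ)..Real.pi,
        pure305 T f₀ F (h * Y α β) * ((Real.sin β : ℝ) : ℂ))
      = A * B * ∫ α in (0 : ℝ)..(2 * Real.pi), ∫ β in (0 : ℝ)..Real.pi,
        F w (infGL305 w h * y α β) * ((Real.sin β : ℝ) : ℂ)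
    rw [← intervalIntegral.integral_const_mul]
    congr 1
    funext α
    rw [← intervalIntegral.integral_const_mul]
    congr 1
    funext β
    rw [hL]
    ring
  · rw [pure_neg904 T f₀ _ _ hO]
    show (∫ α in (0 : ℝ)..(2 * Real.pi), ∫ β in (0 : ℝ)..Real.pi,
        pure305 T f₀ F (h * Y α β) * ((Real.sin β : ℝ) : ℂ)) = 0
    have h0 : ∀ α β : ℝ, pure305 T f₀ F (h * Y α β) * ((Real.sin β : ℝ) : ℂ) = 0 := by
      intro α β
      rw [pure_neg904 T f₀ F _ (fun H => hO ((hOut α β).mp H)), zero_mul]
    simp only [h0, intervalIntegral.integral_zero]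

end Fermat.Agent.LT.T7.H904

end
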